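import Fermat.Statements.S07
import Fermat.Prelude.Thm_ModularForm_sturm_bound_Gamma0

set_option autoImplicit false
open WeierstrassCurve WeierstrassCurve.Affine WeierstrassCurve.Affine.Point
open CuspForm ModularFormClass UpperHalfPlane
open ModularForm
open scoped MatrixGroups

namespace Fermat.Agent.S07

lemma index_Gamma0_two_le : (CongruenceSubgroup.Gamma0 2).index ≤ 3 := by
  let r : Fin 3 → SL(2, ℤ) ⧸ CongruenceSubgroup.Gamma0 2 :=
    ![QuotientGroup.mk 1, QuotientGroup.mk ModularGroup.S,
      QuotientGroup.mk ⟨!![1, 0; 1, 1], by simp [Matrix.det_fin_two]⟩]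
  have hr : Function.Surjective r := by
    intro q
    induction q using QuotientGroup.induction_on with
    | H g =>
      have hdet : ((g 0 0 * g 1 1 - g 0 1 * g 1 0 : ℤ) : ZMod 2) = 1 := by
        rw [← Matrix.det_fin_two, g.det_coe]; simp
      push_cast at hdet
      have key : ∀ (h : SL(2, ℤ)), (((h 0 0 * g 1 0 - h 1 0 * g 0 0 : ℤ)) : ZMod 2) = 0 →
          (QuotientGroup.mk h : SL(2, ℤ) ⧸ CongruenceSubgroup.Gamma0 2) = QuotientGroup.mk g := by
        intro h hh
        rw [QuotientGroup.eq, CongruenceSubgroup.Gamma0_mem]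
        rw [← hh]
        congr 1
        simp [Matrix.SpecialLinearGroup.coe_inv, Matrix.adjugate_fin_two, Matrix.mul_apply,
          Fin.sum_univ_two]
        ring
      have h01 : ∀ x : ZMod 2, x = 0 ∨ x = 1 := by decide
      rcases h01 ((g 1 0 : ℤ) : ZMod 2) with hc | hc
      · exact ⟨0, key 1 (by simp [hc])⟩
      · rcases h01 ((g 0 0 : ℤ) : ZMod 2) with ha | ha
        · exact ⟨1, key _ (by simp [ModularGroup.S, ha])⟩
        · exact ⟨2, key _ (by simp [ha, hc])⟩
  have := Nat.card_le_card_of_surjective r hr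
  simpa [Subgroup.index] using this

theorem result (f : CuspForm (CongruenceSubgroup.Gamma0 2) 2) : f = 0 := by
  let F : ModularForm (CongruenceSubgroup.Gamma0 2) 2 := CuspForm.toModularFormₗ f
  have hF : F = 0 := by
    refine ModularForm.sturm_bound_Gamma0 2 F fun n hn => ?_
    have : n = 0 := by have := index_Gamma0_two_le; omega
    subst this
    exact CuspFormClass.qExpansion_coeff_zero f one_pos (by simp)
  ext z
  simpa [F] using DFunLike.congr_fun hF z

end Fermat.Agent.S07
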