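import Fermat.Statements.S08
import Fermat.Prelude.Thm_ModularForm_sturm_bound_Gamma0

set_option autoImplicit false
open WeierstrassCurve WeierstrassCurve.Affine WeierstrassCurve.Affine.Point
open CuspForm ModularFormClass UpperHalfPlane
open ModularForm
open scoped MatrixGroups

namespace Fermat.Agent.S08

lemma Gamma0_one_eq_top : CongruenceSubgroup.Gamma0 1 = ⊤ := by
  rw [eq_top_iff]
  intro g _
  rw [CongruenceSubgroup.Gamma0_mem]
  exact Subsingleton.elim _ _

theorem result (f : CuspForm (CongruenceSubgroup.Gamma0 1) 2) : f = 0 := by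
  let F : ModularForm (CongruenceSubgroup.Gamma0 1) 2 := CuspForm.toModularFormₗ f
  have hF : F = 0 := by
    refine ModularForm.sturm_bound_Gamma0 1 F fun n hn => ?_
    have : n = 0 := by
      rw [Gamma0_one_eq_top, Subgroup.index_top] at hn
      omega
    subst this
    exact CuspFormClass.qExpansion_coeff_zero f one_pos (by simp)
  ext z
  simpa [F] using DFunLike.congr_fun hF z

end Fermat.Agent.S08
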