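-- Statement S05 (row 5): the mod-p representation of the Frey curve is unramified at q ∉ {2, p}.
import Fermat.Statements.S05
import Fermat.Agent.Local.Frey

set_option autoImplicit false
open WeierstrassCurve WeierstrassCurve.Affine WeierstrassCurve.Affine.Point
open CuspForm ModularFormClass UpperHalfPlane
open FreyPackage

namespace Fermat.Agent.S05

theorem result (P : FreyPackage) {q : ℕ} (hq : q.Prime) (hq2 : q ≠ 2) (hqp : q ≠ P.p) : P.GaloisRepUnramifiedAt q := by
  intro A hA σ hσ x
  refine Subtype.ext ?_
  have hx := x.2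
  rw [Submodule.mem_torsionBy_iff, Nat.cast_smul_eq_nsmul] at hx
  exact FA.Local.smul_eq_of_odd hq hA hq2 hqp (FA.Local.inert_of_mem_inertiaSubgroupIn A hσ) hx

end Fermat.Agent.S05
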