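import Fermat.Statements.S57
import Fermat.Agent.Deform.DepthFree
import Mathlib.LinearAlgebra.Dimension.Free
import Mathlib.RingTheory.Flat.Basic

set_option autoImplicit false
open Algebra Algebra.PatchingLevel

namespace FA.Deform

open RingTheory.Sequence

/-- Transport of a regular sequence along a free family for a restriction of scalars. -/
lemma isWeaklyRegular_of_semilinear_basis {L A N : Type} [CommRing L] [CommRing A]
    [AddCommGroup N] [Module A N] (f : L →+* A) {d : ℕ} (b : Fin d → N)
    (hspan : ∀ x : N, ∃ c : Fin d → L, x = ∑ i, f (c i) • b i)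
    (hrel : ∀ c : Fin d → L, ∑ i, f (c i) • b i = 0 → c = 0)
    (rs : List L) (hrs : IsWeaklyRegular L rs) :
    IsWeaklyRegular N (rs.map f) := by
  let : Algebra L A := f.toAlgebra
  let : Module L N := Module.compHom N f
  have : IsScalarTower L A N := .of_algebraMap_smul fun _ _ => rfl
  let bas : Module.Basis (Fin d) L N := Module.Basis.mk (v := b)
    (Fintype.linearIndependent_iff.mpr fun c hc i => congrFun (hrel c hc) i) (by
      rintro x -
      obtain ⟨c, rfl⟩ := hspan x
      exact Submodule.sum_mem _ fun i _ => Submodule.smul_mem _ (c i)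
        (Submodule.subset_span ⟨i, rfl⟩))
  have : Module.Free L N := .of_basis bas
  exact (isWeaklyRegular_map_algebraMap_iff A N rs).mpr
    (((TensorProduct.rid L N).isWeaklyRegular_congr rs).mp hrs.isWeaklyRegular_lTensor)

end FA.Deform

namespace Fermat.Agent.S57

theorem result
    {𝒪 : Type} [CommRing 𝒪] [IsDomain 𝒪] [IsDiscreteValuationRing 𝒪]
    {r : ℕ} {R : Type} [CommRing R] [Algebra 𝒪 R]
    {M : Type} [AddCommGroup M] [Module R M] [Nontrivial M]
    (L : Algebra.PatchingLevel 𝒪 r R M ⊥) :
    Module.Free R M ∧ Module.annihilator R M = ⊥ ∧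
      RingHom.ker L.ψ = Ideal.span (Set.range fun i : Fin r => L.φ (MvPowerSeries.X i)) := by
  classical
  let A := MvPowerSeries (Fin r) 𝒪
  obtain ⟨ϖ, hϖ⟩ := IsDiscreteValuationRing.exists_irreducible 𝒪
  have hmax := (IsDiscreteValuationRing.irreducible_iff_uniformizer ϖ).mp hϖ
  obtain ⟨hreg, hgen⟩ := FA.Deform.paramList_spec 𝒪 ϖ hϖ.ne_zero hmax r
  have : Nontrivial R := Module.nontrivial R M
  have : Nontrivial L.N := L.π_surjective.nontrivial
  have : Module.Finite A L.N := by
    refine ⟨⟨Finset.univ.image L.b, ?_⟩⟩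
    rw [_root_.eq_top_iff]
    rintro x -
    obtain ⟨c, rfl⟩ := L.b_span x
    exact Submodule.sum_mem _ fun i _ => Submodule.smul_mem _ _
      (Submodule.subset_span (by simp))
  -- the images of the parameters form a regular sequence on `N`
  have hw : RingTheory.Sequence.IsWeaklyRegular L.N
      ((FA.Deform.paramList 𝒪 ϖ r).map L.φ.toRingHom) :=
    FA.Deform.isWeaklyRegular_of_semilinear_basis L.φ.toRingHom L.b L.b_span
      (fun c hc => funext fun i => by simpa using (L.b_rel c).mp hc i) _ hreg
  have hmem : ∀ a ∈ (FA.Deform.paramList 𝒪 ϖ r).map L.φ.toRingHom,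
      a ∈ IsLocalRing.maximalIdeal A := by
    intro a ha
    simp only [List.mem_map, FA.Deform.paramList, List.mem_append, List.mem_ofFn,
      List.mem_singleton] at ha
    obtain ⟨p, hp, rfl⟩ := ha
    rcases hp with ⟨i, rfl⟩ | rfl
    · intro hu
      have := hu.map L.ψ
      rw [AlgHom.toRingHom_eq_coe, RingHom.coe_coe, L.ψ_φ_X i] at this
      exact not_isUnit_zero this
    · have hC : L.φ (MvPowerSeries.C ϖ) = MvPowerSeries.C ϖ := L.φ.commutes ϖ
      rw [AlgHom.toRingHom_eq_coe, RingHom.coe_coe, hC]
      intro hu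
      have := hu.map MvPowerSeries.constantCoeff
      rw [MvPowerSeries.constantCoeff_C] at this
      exact hϖ.not_isUnit this
  have hN : Module.Free A L.N := by
    refine FA.Deform.free_of_isRegular_of_span_eq _ A L.N
      (fun i : Fin (FA.Deform.paramList 𝒪 ϖ r).length => (FA.Deform.paramList 𝒪 ϖ r).get i)
      ?_ _ (List.length_map _) hmem
      (RingTheory.Sequence.IsRegular.of_isWeaklyRegular_of_mem_maximalIdeal L.N hmem hw)
    rw [Set.range_list_get]
    exact hgen
  obtain ⟨ι, e⟩ := hN.exists_basis.some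
  obtain ⟨i₀⟩ : Nonempty ι := e.index_nonempty
  set I : Ideal A := Ideal.span (Set.range fun i : Fin r => L.φ (MvPowerSeries.X i)) with hI
  have hIψ : ∀ a ∈ I, L.ψ a = 0 := by
    intro a ha
    have : I ≤ RingHom.ker L.ψ := Ideal.span_le.mpr (by
      rintro _ ⟨i, rfl⟩
      exact L.ψ_φ_X i)
    exact this ha
  have hcoord : ∀ x : L.N, L.π x = 0 → ∀ i : ι, e.repr x i ∈ I := by
    intro x hx i
    refine Submodule.smul_induction_on ((L.ker_π x).mp hx) ?_ ?_
    · intro a ha n _
      simpa using I.mul_mem_right _ ha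
    · intro y z hy hz
      simpa using I.add_mem hy hz
  have hker : RingHom.ker L.ψ = I := by
    refine le_antisymm (fun f hf => ?_) hIψ
    have h0 : L.π (f • e i₀) = 0 := by rw [L.π_smul, RingHom.mem_ker.mp hf, zero_smul]
    simpa using hcoord _ h0 i₀
  have hli : LinearIndependent R (fun i => L.π (e i)) := by
    rw [linearIndependent_iff']
    intro s c hc i hi
    choose a ha using L.ψ_surjective
    have h0 : L.π (∑ j ∈ s, a (c j) • e j) = 0 := by
      simp only [map_sum, L.π_smul, ha]
      exact hc
    have := hcoord _ h0 i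
    rw [map_sum, Finsupp.finsetSum_apply] at this
    simp only [map_smul, Module.Basis.repr_self, Finsupp.smul_single, smul_eq_mul, mul_one,
      Finsupp.single_apply, Finset.sum_ite_eq', hi, if_true] at this
    rw [← ha (c i)]
    exact hIψ _ this
  have hsp : ⊤ ≤ Submodule.span R (Set.range fun i => L.π (e i)) := by
    rintro m -
    obtain ⟨x, rfl⟩ := L.π_surjective m
    rw [← e.linearCombination_repr x, Finsupp.linearCombination_apply, Finsupp.sum, map_sum]
    exact Submodule.sum_mem _ fun i _ => by
      rw [L.π_smul]; exact Submodule.smul_mem _ _ (Submodule.subset_span ⟨i, rfl⟩)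
  let B := Module.Basis.mk hli hsp
  refine ⟨.of_basis B, ?_, hker⟩
  rw [eq_bot_iff]
  intro c hc
  have := congrArg (fun m => B.repr m i₀) (Module.mem_annihilator.mp hc (B i₀))
  simpa using this

end Fermat.Agent.S57
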