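import Fermat.Statements.S21
import Fermat.Agent.Dim.ParabolicBound
import Fermat.Agent.Period.Injective

set_option autoImplicit false
open ModularCurve

namespace Fermat.Agent.S21

theorem result (N : ℕ) [NeZero N] :
    Function.Injective (ModularCurve.periodHomPair N)
      ∧ LinearMap.range (ModularCurve.periodHomPair N)
          = ModularCurve.Period.parabolicHoms ℂ (CongruenceSubgroup.Gamma0 N) ℂ := by
  haveI := FA.Dim.parabolicHoms_finite N
  have hinj : Function.Injective (ModularCurve.periodHomPair N) :=
    FA.Period.periodHomPair_injective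
  refine ⟨hinj, ?_⟩
  have hle := FA.Period.range_periodHomPair_le (N := N)
  let L : (CuspForm (CongruenceSubgroup.Gamma0 N) 2 × CuspForm (CongruenceSubgroup.Gamma0 N) 2)
      →ₗ[ℂ] ModularCurve.Period.parabolicHoms ℂ (CongruenceSubgroup.Gamma0 N) ℂ :=
    LinearMap.codRestrict _ (ModularCurve.periodHomPair N) fun p => hle ⟨p, rfl⟩
  have hL : Function.Injective L := fun p q h => hinj (congrArg Subtype.val h)
  haveI : Module.Finite ℂ (CuspForm (CongruenceSubgroup.Gamma0 N) 2) :=
    Module.Finite.of_injective (L.comp (LinearMap.inl ℂ _ _)) (hL.comp LinearMap.inl_injective)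
  refine Submodule.eq_of_le_of_finrank_le hle ?_
  rw [LinearMap.finrank_range_of_inj hinj, Module.finrank_prod, ← two_mul]
  exact FA.Dim.finrank_parabolicHoms_le N

end Fermat.Agent.S21
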