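import Fermat.Statements.S09
import Fermat.Agent.S10
import Fermat.Agent.S11
import Fermat.Agent.S12
import Fermat.Agent.S13

set_option autoImplicit false
open WeierstrassCurve WeierstrassCurve.Affine WeierstrassCurve.Affine.Point
open CuspForm ModularFormClass UpperHalfPlane
open FreyPackage

namespace Fermat.Agent.S09

theorem result (P : FreyPackage) : GaloisRepIsIrreducible (K := AlgebraicClosure ℚ) ℚ P.freyCurve P.p := by
  by_contra hred
  have hline := Fermat.Agent.S13.result P hred
  rcases lt_or_ge P.p 17 with h | h
  · by_cases h11 : P.p = 11
    · exact Fermat.Agent.S11.result P h11 hline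
    · refine Fermat.Agent.S10.result P ?_ hline
      have h5 := P.hp5
      have hpp := P.pp
      generalize P.p = p at h h11 h5 hpp ⊢
      interval_cases p <;> first | omega | (norm_num at hpp)
  · exact Fermat.Agent.S12.result P h hline

end Fermat.Agent.S09
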