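import Fermat.Statements.S49
import Fermat.Agent.Deform.EigenLift

set_option autoImplicit false
open CuspForm EisensteinWeightOne CongruenceSubgroup ModularFormClass
open FLT FLT.AbstractIntegralStructure

namespace Fermat.Agent.S49

lemma bridge_congr (a : ℕ → ℤ) (n : ℕ) :
    ((bridgeProduct a).coeff n : ZMod 3) = (a n : ZMod 3) := by
  have h1 : PowerSeries.map (Int.castRingHom (ZMod 3)) (e1Chi3In ℤ) = 1 := by
    ext m
    rcases eq_or_ne m 0 with rfl | hm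
    · simp [e1Chi3In, e1Chi3]
    · simp [e1Chi3In, e1Chi3, hm, show (6 : ZMod 3) = 0 from rfl]
  have h := congrArg (PowerSeries.coeff n) (map_mul (PowerSeries.map (Int.castRingHom (ZMod 3)))
    (PowerSeries.mk a) (e1Chi3In ℤ))
  rw [h1, mul_one] at h
  simpa only [bridgeProduct, PowerSeries.coeff_map, PowerSeries.coeff_mk, eq_intCast] using h

lemma chi_congr (ℓ : ℕ) : ((chiNegThree ℓ : ℤ) : ZMod 3) = (ℓ : ZMod 3) := by
  rw [← ZMod.natCast_mod ℓ 3]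
  have := Nat.mod_lt ℓ (show 3 > 0 by norm_num)
  unfold chiNegThree
  interval_cases h : ℓ % 3 <;> simp; decide

theorem result
    {N : ℕ} [NeZero N] (h : CuspForm.HasIntegralBasis N) {a : ℕ → ℤ}
    (heig : FormalHecke.IsEigensystem
      (fun ℓ => if ℓ ∣ N then 0 else ((chiNegThree ℓ : ℤ) : ℤ)) a)
    (hreal : CuspForm.IsLatticeRealized N a) :
    ∃ (f : CuspForm (Gamma0 N) 2) (_ : f.IsNormalizedEigenform)
      (𝔪' : Ideal (integralClosure ℤ ℂ)), 𝔪'.IsMaximal ∧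
      ((3 : ℕ) : integralClosure ℤ ℂ) ∈ 𝔪' ∧
      ∀ (ℓ : ℕ) (_ : ℓ.Prime) (_ : ¬ ℓ ∣ N),
        ∃ c : integralClosure ℤ ℂ, (c : ℂ) = ModularFormClass.qCoeff f ℓ ∧
          c - (a ℓ : integralClosure ℤ ℂ) ∈ 𝔪' := by
  obtain ⟨f₀, hf₀, af, haf, hcong⟩ := hreal
  have hmod : ∀ n, (af n : ZMod 3) = (a n : ZMod 3) := by
    intro n
    rw [← bridge_congr a n, ← sub_eq_zero, ← Int.cast_sub]
    exact (ZMod.intCast_zmod_eq_zero_iff_dvd _ 3).mpr (hcong n)
  have hlat : f₀ ∈ CuspForm.intLattice N 2 := Submodule.subset_span fun n => ⟨af n, (haf n).symm⟩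
  suffices H : (∀ z : ℤ, FA.Deform.qLin N f₀ 1 = (z : ℂ) → ¬ ((3 : ℕ) : ℤ) ∣ z) ∧
      ∀ (ℓ : ℕ) (hℓ : ℓ.Prime) (hℓN : ¬ ℓ ∣ N) (n : ℕ), ∃ z : ℤ,
        FA.Deform.qLin N (CuspForm.heckeTLin 2 hℓ hℓN f₀ - (a ℓ : ℂ) • f₀) n =
          (((3 : ℕ) * z : ℤ) : ℂ) by
    obtain ⟨f, hf, m', hm', h3, hres⟩ := FA.Deform.exists_eigenform_congruent h Nat.prime_three
      (b := a) f₀ hlat H.1 H.2
    exact ⟨f, hf, m', hm', h3, hres⟩
  refine ⟨?_, ?_⟩
  · intro z hz hdvd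
    have hz' : af 1 = z := by
      have : (af 1 : ℂ) = (z : ℂ) := (haf 1).trans hz
      exact_mod_cast this
    have := hmod 1
    rw [hz', heig.1, Int.cast_one, (ZMod.intCast_zmod_eq_zero_iff_dvd z 3).mpr hdvd] at this
    exact absurd this (by decide)
  · intro ℓ hℓ hℓN n
    have hrel := congrArg (fun z : ℤ => (z : ZMod 3)) (heig.2 ℓ hℓ n)
    simp only [if_neg hℓN, Int.cast_add, Int.cast_mul, chi_congr] at hrel
    let w : ℤ := af (n * ℓ) + (if ℓ ∣ n then (ℓ : ℤ) * af (n / ℓ) else 0) - a ℓ * af n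
    obtain ⟨z, hz⟩ : (3 : ℤ) ∣ w := by
      refine (ZMod.intCast_zmod_eq_zero_iff_dvd w 3).mp ?_
      by_cases hd : ℓ ∣ n
      · simp only [w, if_pos hd, Int.cast_sub, Int.cast_add, Int.cast_mul, hmod, Int.cast_natCast]
        simp only [if_pos hd] at hrel
        rw [mul_comm n ℓ, hrel, sub_self]
      · simp only [w, if_neg hd, add_zero, Int.cast_sub, Int.cast_mul, hmod]
        simp only [if_neg hd, Int.cast_zero, mul_zero, add_zero] at hrel
        rw [mul_comm n ℓ, hrel, sub_self]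
    refine ⟨z, ?_⟩
    rw [map_sub, Pi.sub_apply, map_smul, Pi.smul_apply, FA.Deform.qLin_heckeT hℓ hℓN,
      show ((3 : ℕ) : ℤ) * z = w from hz.symm]
    simp only [w, FA.Deform.qLin_apply, ← haf, smul_eq_mul]
    split_ifs <;> push_cast <;> rfl

end Fermat.Agent.S49
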