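-- Statement S04: the Frey curve is modular.
import Fermat.Statements.S04
import Fermat.Agent.Root.Closed

set_option autoImplicit false
open WeierstrassCurve WeierstrassCurve.Affine WeierstrassCurve.Affine.Point
open CuspForm ModularFormClass UpperHalfPlane
open FreyPackage

namespace Fermat.Agent.S04

theorem result (P : FreyPackage) : P.freyCurve.IsModular := by
  exact FA.Root.frey_isModular_closed P

end Fermat.Agent.S04
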