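import Fermat.Statements.S18
import Fermat.Agent.CurveRed.Instance
import Fermat.Agent.CurveRed.Modular
import Fermat.Agent.CurveRed.Residue

set_option autoImplicit false
set_option synthInstance.maxHeartbeats 400000
set_option linter.style.haveILetI false
open ModularCurve

namespace Fermat.Agent.S18

theorem result (N : ℕ) [NeZero N] {ℓ : ℕ}
    [Fact ℓ.Prime] (hℓN : ¬ ℓ ∣ N) (A : ValuationSubring (AlgebraicClosure ℚ)) (hA : A.LiesOverPrime ℓ)
    (h : ModularCurve.ReductionInputsModL A N) (m : ℕ) (hm : ¬ ℓ ∣ m) (z : ModularCurve.JZero N)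
    (hmz : m • z = 0) (hz : ModularCurve.reductionModL A N z = 0) :
    z = 0 := by
  haveI : Algebra.IsAlgebraic ℚ (AlgebraicClosure ℚ) := AlgebraicClosure.isAlgebraic ℚ
  letI : Algebra (AlgebraicClosure ℚ) ℂ :=
    (IsAlgClosed.lift : AlgebraicClosure ℚ →ₐ[ℚ] ℂ).toRingHom.toAlgebra
  haveI := FA.CurveRed.isAlgClosed_residueField A
  have hk : ∀ r : ℕ, r.Prime → r ∣ N → (r : IsLocalRing.ResidueField A) ≠ 0 := fun r hr hrN =>
    FA.CurveRed.natCast_residue_ne_zero A (ℓ := ℓ) Fact.out hA fun hd =>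
      hℓN ((Nat.prime_dvd_prime_iff_eq Fact.out hr).1 hd ▸ hrN)
  have hg : FA.Curve.genus (AlgebraicClosure ℚ) (FA.CurveRed.upField (L := AlgebraicClosure ℚ) N) ≤
      FA.Curve.genus (IsLocalRing.ResidueField A)
        (modularFunctionFieldFullC (IsLocalRing.ResidueField A) N) := by
    rw [FA.CurveRed.upField, FA.ModField.laurentBaseChange_full]
    exact FA.CurveRed.Modular.genus_le (A := A) IsLocalRing.residue_surjective
      (FA.CurveRed.residue_eq_zero_iff A) N hk
  have hm0 : m ≠ 0 := fun h0 => hm (h0 ▸ dvd_zero ℓ)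
  exact FA.CurveRed.eq_zero_of_reductionAlong_eq_zero IsLocalRing.residue_surjective
    (FA.CurveRed.residue_eq_zero_iff A) hg h hm0
    (FA.CurveRed.valuation_natCast_eq_one A Fact.out hA hm) z hmz hz

end Fermat.Agent.S18
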