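import Fermat.Statements.S19
import Fermat.Agent.FlatModel.Modular

set_option autoImplicit false
set_option linter.style.haveILetI false
open ModularCurve
open ModularCurve

namespace Fermat.Agent.S19

theorem result
    (p : ℕ) [NeZero p] (ℓ : ℕ) [Fact ℓ.Prime] (hℓp : ¬ ℓ ∣ p) (k : ℕ) :
    ∃ (H : Type) (_ : CommRing H) (_ : HopfAlgebra (GaloisRep.ratLocalizedAt ℓ) H),
      Module.Finite (GaloisRep.ratLocalizedAt ℓ) H ∧ Module.Flat (GaloisRep.ratLocalizedAt ℓ) H ∧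
      Coalgebra.IsCocomm (GaloisRep.ratLocalizedAt ℓ) H ∧
      ∃ e : WithConv (H →ₐ[GaloisRep.ratLocalizedAt ℓ] AlgebraicClosure ℚ) ≃
          ↥(Submodule.torsionBy ℤ (JZero p) ((ℓ : ℤ) ^ k)),
        (∀ f g, e (f * g) = e f + e g) ∧
        ∀ (σ : AlgebraicClosure ℚ ≃ₐ[ℚ] AlgebraicClosure ℚ)
          (f g : WithConv (H →ₐ[GaloisRep.ratLocalizedAt ℓ] AlgebraicClosure ℚ)),
          (∀ h : H, g h = σ (f h)) → ((e g : JZero p)) = σ • (e f : JZero p) := by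
  classical
  have hℓ : ℓ.Prime := Fact.out
  obtain ⟨A, hA⟩ := FA.Deform.exists_liesOverPrime hℓ
  haveI : Algebra.IsAlgebraic ℚ (AlgebraicClosure ℚ) := AlgebraicClosure.isAlgebraic ℚ
  letI : Algebra (AlgebraicClosure ℚ) ℂ :=
    (IsAlgClosed.lift : AlgebraicClosure ℚ →ₐ[ℚ] ℂ).toRingHom.toAlgebra
  haveI : NeZero (ℓ ^ k) := ⟨pow_ne_zero _ hℓ.ne_zero⟩
  set V := Submodule.torsionBy ℤ (JZero p) ((ℓ : ℤ) ^ k)
  haveI : Finite V := by
    haveI := FA.JTorsion.tors_finite (FA.Level.lvlGamma0 p) (AlgebraicClosure ℚ) (ℓ ^ k)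
    refine Finite.of_injective (β := FA.JTorsion.tors (FA.Level.lvlGamma0 p) (AlgebraicClosure ℚ)
      (ℓ ^ k)) (fun x => ⟨x.1, ?_⟩) fun x y hxy => Subtype.ext (congrArg Subtype.val hxy)
    have h := (Submodule.mem_torsionBy_iff _ _).1 x.2
    show ((ℓ ^ k : ℕ) : ℤ) • (x.1 : JZero p) = 0
    exact_mod_cast h
  haveI : Fintype V := Fintype.ofFinite V
  let act : (AlgebraicClosure ℚ ≃ₐ[ℚ] AlgebraicClosure ℚ) → V → V := fun σ x =>
    ⟨σ • (x.1 : JZero p), by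
      rw [Submodule.mem_torsionBy_iff]
      exact ((map_zsmul (DistribSMul.toAddMonoidHom (JZero p) σ) ((ℓ : ℤ) ^ k) x.1).symm.trans
        (by rw [(Submodule.mem_torsionBy_iff _ _).1 x.2, map_zero]))⟩
  obtain ⟨F₀, hF₀, hfix⟩ := FA.JTorsion.exists_field_fix p (Set.range fun x : V => (x.1 : JZero p))
    (Set.finite_range _)
  obtain ⟨H, i1, i2, h1, h2, h3, e, he, he'⟩ := FA.LocalDef.exists_hopf_of_hasModel hℓ hA
    (act := act) (fun x => Subtype.ext (one_smul _ (x.1 : JZero p)))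
    (fun σ τ x => Subtype.ext (mul_smul σ τ (x.1 : JZero p)))
    (fun σ x y => Subtype.ext (smul_add σ (x.1 : JZero p) y.1))
    ⟨F₀, hF₀, fun σ hσ x => Subtype.ext
      (hfix σ ((IntermediateField.mem_fixingSubgroup_iff F₀ σ).1 hσ) _ ⟨x, rfl⟩)⟩
    (FA.FlatModel.hasModel_jZero p hℓp hA V.subtype.toAddMonoidHom Subtype.val_injective act
      fun σ x => rfl)
  exact ⟨H, i1, i2, h1, h2, h3, e, he, fun σ f g h => congrArg Subtype.val (he' σ f g h)⟩

end Fermat.Agent.S19
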