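import Fermat.Statements.S26
import Fermat.Agent.AbTors.Main
import Fermat.Agent.AbTors.Cube
import Fermat.Agent.AbTors.Count
import Fermat.Agent.AbTors.Squeeze

set_option autoImplicit false
set_option autoImplicit false
open CategoryTheory CategoryTheory.Limits AlgebraicGeometry NeronModelInfra GoodReductionJacobian
universe u
open GoodReductionJacobian GoodReductionJacobian.RelativeGroupLaw

namespace Fermat.Agent.S26

theorem result
    (K : Type u) [Field K] [IsAlgClosed K] {A : Scheme.{u}} (f : A ⟶ Spec (CommRingCat.of K))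
    (L : RelativeGroupLaw K f) (hc : L.IsCommutative) (hA : AbelianSchemePropertyBundle K f)
    (g : ℕ) [SmoothOfRelativeDimension g f] (n : ℕ) (hn : (n : K) ≠ 0) :
    Nat.card {x : SchemeHomOver (𝟙 (Spec (CommRingCat.of K))) f //
        L.IsTorsionPoint (𝟙 (Spec (CommRingCat.of K))) n x} = n ^ (2 * g) := by
  exact FA.AbTors.natCard_torsion_of f L hc hA g (FA.AbTors.integralHolds _) FA.AbTors.factorialStalks
    (FA.AbTors.degIsCard _) (FA.AbTors.quadraticHolds _) (FA.AbTors.squeezeHolds _) n hn

end Fermat.Agent.S26
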