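import Fermat.Statements.S27
import Fermat.Agent.PicTors.CountComplex
import Fermat.Agent.PicTors.OfComplex

set_option autoImplicit false
set_option autoImplicit false
open AlgebraicCurve
open AlgebraicCurve AlgebraicCurve.Pic0

namespace Fermat.Agent.S27

theorem result
    (K F : Type*) [Field K] [Field F] [Algebra K F] [IsAlgClosed K] [CharZero K]
    [IsCurveOver K F] [Algebra.EssFiniteType K F]
    (ℓ : ℕ) [Fact ℓ.Prime] (k : ℕ) :
    Nat.card (Pic0.torsion K F (ℓ ^ k)) = ℓ ^ (2 * genusFF K F * k) := by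
  rw [FA.PicTors.natCard_torsion_of_countComplex FA.PicTors.countComplex K F (ℓ ^ k)
    (pow_ne_zero _ (Fact.out : ℓ.Prime).ne_zero), ← pow_mul, mul_comm k]

end Fermat.Agent.S27
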