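import Fermat.Statements.S37
import Fermat.Agent.CurveRed.GoodReduction
import Fermat.Agent.ModField.Congruence.Specialization

set_option autoImplicit false
open ModularCurve

namespace Fermat.Agent.S37

theorem result (N p : ℕ) [NeZero N] (hcomm : ModularCurve.HeckeOperatorsCommuteBar N) : letI := ModularCurve.heckeModuleBar N; ∀ (_ : SMulCommClass (AlgebraicClosure ℚ ≃ₐ[ℚ] AlgebraicClosure ℚ) ModularCurve.HeckeAlg (ModularCurve.JZero N)), ModularCurve.SpecializationExists (K := ℚ) (L := AlgebraicClosure ℚ) N p (ModularCurve.JZero N) := by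
  exact FA.ModField.specializationExists_of_inputs N p hcomm fun ℓ hℓ hℓNp A hA =>
    FA.CurveRed.Modular.reductionInputsModL N hℓ (fun h => hℓNp (dvd_mul_of_dvd_left h p)) A hA

end Fermat.Agent.S37
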