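import Fermat.Statements.S41
import Fermat.Agent.HeckeH1.EigenSystem
import Fermat.Agent.HeckeH1.NonEisenstein

set_option autoImplicit false
open WeierstrassCurve WeierstrassCurve.Affine WeierstrassCurve.Affine.Point
open scoped CongruenceSubgroup
open WeierstrassCurve

namespace Fermat.Agent.S41

theorem result
    (E : WeierstrassCurve ℚ) [E.IsElliptic] {W : WeierstrassCurve ℤ} (hW : W.IsIntegralModelOf E)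
    {p N q' : ℕ} (hp : p.Prime) (hp2 : p ≠ 2) (hN : 0 < N) (hq' : q'.Prime) (hq'N : ¬ q' ∣ N) (hq'p : q' ≠ p)
    (hirr : GaloisRepIsIrreducible (K := AlgebraicClosure ℚ) ℚ E p)
    (f : CuspForm (CongruenceSubgroup.Gamma0 N) 2) (𝔪 : Ideal (integralClosure ℤ ℂ))
    (hf : f.IsNormalizedEigenform) (hmax : 𝔪.IsMaximal) (hpm : (p : integralClosure ℤ ℂ) ∈ 𝔪)
    (hcong : ∀ ℓ : ℕ, ℓ.Prime → W.IsGoodPrimeFor ℓ → ¬ ℓ ∣ N → ℓ ≠ p →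
      ∃ a : integralClosure ℤ ℂ, (a : ℂ) = ModularFormClass.qCoeff f ℓ ∧
        a - ((W.apOfModel ℓ : ℤ) : integralClosure ℤ ℂ) ∈ 𝔪)
    (hLR : ∃ a : integralClosure ℤ ℂ, (a : ℂ) = ModularFormClass.qCoeff f q' ∧
      a ^ 2 - ((q' : integralClosure ℤ ℂ) + 1) ^ 2 ∈ 𝔪) :
    ∃ (g : CuspForm (CongruenceSubgroup.Gamma0 (N * q')) 2) (𝔪' : Ideal (integralClosure ℤ ℂ)),
      g.IsNormalizedEigenform ∧ 𝔪'.IsMaximal ∧ (p : integralClosure ℤ ℂ) ∈ 𝔪' ∧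
      (∀ ℓ : ℕ, ℓ.Prime → W.IsGoodPrimeFor ℓ → ¬ ℓ ∣ N * q' → ℓ ≠ p →
        ∃ a : integralClosure ℤ ℂ, (a : ℂ) = ModularFormClass.qCoeff g ℓ ∧
          a - ((W.apOfModel ℓ : ℤ) : integralClosure ℤ ℂ) ∈ 𝔪') ∧
      g.IsNewAt q' := by
  haveI : Fact q'.Prime := ⟨hq'⟩
  haveI : NeZero N := ⟨hN.ne'⟩
  haveI := hmax
  obtain ⟨ψ, hψ⟩ := FA.JTorsion.exists_eigenChar ∅ hf
  let a : FA.HeckeH1.GP N → integralClosure ℤ ℂ := fun ℓ =>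
    ψ (CuspForm.heckeAlgebra.T ℓ.2.1 ℓ.2.2 (Set.notMem_empty _))
  have ha : ∀ ℓ, (a ℓ : ℂ) = ModularFormClass.qCoeff f ℓ.1 := fun ℓ => hψ ℓ.1 ℓ.2.1 ℓ.2.2 _
  have hint : ∀ z : ℤ, (z : integralClosure ℤ ℂ) ∈ 𝔪 → (p : ℤ) ∣ z := fun z hz => by
    by_contra h
    obtain ⟨u, v, huv⟩ := (Nat.prime_iff_prime_int.1 hp).coprime_iff_not_dvd.2 h
    refine hmax.ne_top ((Ideal.eq_top_iff_one _).2 ?_)
    have h1 := congrArg (Int.cast : ℤ → integralClosure ℤ ℂ) huv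
    push_cast at h1
    rw [← h1]
    exact 𝔪.add_mem (𝔪.mul_mem_left _ hpm) (𝔪.mul_mem_left _ hz)
  have hLR' : a ⟨q', Fact.out, hq'N⟩ ^ 2 - ((q' : integralClosure ℤ ℂ) + 1) ^ 2 ∈ 𝔪 := by
    obtain ⟨a', ha', h⟩ := hLR
    rwa [show a ⟨q', Fact.out, hq'N⟩ = a' from Subtype.ext ((ha _).trans ha'.symm)]
  have hap : ∀ ℓ : FA.HeckeH1.GP (N * q'), W.IsGoodPrimeFor ℓ.1 → ℓ.1 ≠ p →
      a (FA.HeckeH1.gpDown ℓ) - ((W.apOfModel ℓ.1 : ℤ) : integralClosure ℤ ℂ) ∈ 𝔪 := by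
    intro ℓ hgood hℓp
    obtain ⟨a', ha', h⟩ := hcong ℓ.1 ℓ.2.1 hgood (FA.HeckeH1.gpDown ℓ).2.2 hℓp
    rwa [show a (FA.HeckeH1.gpDown ℓ) = a' from Subtype.ext ((ha _).trans ha'.symm)]
  have hNE : ∀ L : ℕ, 0 < L → ∃ l : FA.HeckeH1.GP (N * q'), l.1 ≡ 1 [MOD L] ∧
      a (FA.HeckeH1.gpDown l) - ((l.1 : integralClosure ℤ ℂ) + 1) ∉ 𝔪 := by
    intro L hL
    obtain ⟨l, hl, hlS, hgood, hlp, hl1, htr⟩ := FA.HeckeH1.exists_prime_trace_ne_two E hW hp hp2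
      hirr hL (N * q').primeFactors
    have hlN : ¬ l ∣ N * q' := fun h =>
      hlS (Nat.mem_primeFactors.2 ⟨hl, h, Nat.mul_ne_zero hN.ne' hq'.ne_zero⟩)
    refine ⟨⟨l, hl, hlN⟩, hl1.of_mul_right p, fun h => htr ?_⟩
    have h1 : ((W.apOfModel l - ((l : ℤ) + 1) : ℤ) : integralClosure ℤ ℂ) ∈ 𝔪 := by
      have h2 := 𝔪.sub_mem h (hap ⟨l, hl, hlN⟩ hgood hlp)
      rw [sub_sub_sub_cancel_left] at h2
      push_cast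
      exact h2
    have h3 := (ZMod.intCast_zmod_eq_zero_iff_dvd _ p).2 (hint _ h1)
    have h4 : (l : ZMod p) = 1 := by
      rw [← Nat.cast_one, ZMod.natCast_eq_natCast_iff]
      exact hl1.of_mul_left L
    push_cast at h3
    rw [h4, sub_eq_zero] at h3
    rw [h3]
    norm_num
  obtain ⟨g, 𝔪', hg, hm', hpm', hnew, hb⟩ :=
    FA.HeckeH1.raise_eigenform hp hq'N f hf 𝔪 hpm a ha hLR' hNE
  refine ⟨g, 𝔪', hg, hm', hpm', fun ℓ hℓ hgood hℓN hℓp => ?_, hnew⟩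
  obtain ⟨b, hb1, hb2⟩ := hb ⟨ℓ, hℓ, hℓN⟩
  exact ⟨b, hb1, hb2 _ (hap ⟨ℓ, hℓ, hℓN⟩ hgood hℓp)⟩

end Fermat.Agent.S41
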