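import Fermat.Statements.S46
import Fermat.Agent.Root.Integral.Main

set_option autoImplicit false
open WeierstrassCurve CuspForm EisensteinWeightOne FormalHecke
open FLT FLT.No2BridgeWiring

namespace Fermat.Agent.S46

theorem result :
    ∀ W : WeierstrassCurve ℤ, W.Δ ≠ 0 → W.IsSemistableModel → W.ModRepIsIrreducible 3 →
      ∃ (N : ℕ) (_ : NeZero N) (a : ℕ → ℤ),
        CuspForm.HasIntegralBasis N ∧
        FormalHecke.IsEigensystem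
          (fun ℓ => if ℓ ∣ N then 0 else ((chiNegThree ℓ : ℤ) : ℤ)) a ∧
        CuspForm.IsLatticeRealized N a ∧
        (∀ q : ℕ, q.Prime → q ≠ 3 → ¬ q ^ 3 ∣ N) ∧
        ∀ ℓ : ℕ, ℓ.Prime → W.IsGoodPrimeFor ℓ → ¬ ℓ ∣ N → ℓ ≠ 3 →
          (3 : ℤ) ∣ (a ℓ - W.apOfModel ℓ) := by
  intro W hΔ hW _
  obtain ⟨N, hN, a, hB, hE, hR, hC, hA⟩ := FA.LTInt.realized W hΔ hW
  exact ⟨N, hN, a, hB, hE, hR, fun q hq _ => hC q hq, fun ℓ hℓ _ hℓN _ => by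
    rw [hA ℓ hℓ hℓN, sub_self]
    exact dvd_zero 3⟩

end Fermat.Agent.S46
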