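import Fermat.Statements.S54
import Fermat.Agent.Deform.Frobenius

set_option autoImplicit false
open GaloisRep GaloisRep.DeformationRingData

namespace Fermat.Agent.S54

theorem result {𝒪 : Type} [CommRing 𝒪] [IsDomain 𝒪] [IsDiscreteValuationRing 𝒪] [IsAdicComplete (IsLocalRing.maximalIdeal 𝒪) 𝒪] {ρbar : ResidualGaloisRep (IsLocalRing.ResidueField 𝒪)} {𝒟 : ∀ ⦃A : Type⦄ [CommRing A] [IsLocalRing A] [Algebra 𝒪 A], GaloisRepAdic A → Prop} (D : GaloisRep.DeformationRingData 𝒪 ρbar 𝒟) {N : ℕ} [NeZero N] {S : Set ℕ} {θ : CuspForm.heckeAlgebra N 2 S →+* IsLocalRing.ResidueField 𝒪} {T : Type} [CommRing T] [IsLocalRing T] [IsNoetherianRing T] [IsAdicComplete (IsLocalRing.maximalIdeal T) T] [Algebra 𝒪 T] [IsLocalHom (algebraMap 𝒪 T)] [Module.Finite 𝒪 T] [Module.Free 𝒪 T] (H : CuspForm.HeckeGaloisRepDatum N S 𝒪 θ T) (hS : ∀ q : ℕ, q.Prime → q ∣ N → q ∈ S) (h𝒟 : 𝒟 H.ρ) (hres : H.ρ.residual.IsEquiv (ρbar.baseChangeAlong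 (IsLocalRing.ResidueField.map (algebraMap 𝒪 T)))) : ∃ φ : D.R →ₐ[𝒪] T, Function.Surjective φ ∧ ∃ hφ : IsLocalHom (φ : D.R →+* T), (D.ρ.baseChangeAlong (φ : D.R →+* T) hφ).IsEquiv H.ρ := by
  obtain ⟨φ, ⟨hφ, ⟨e⟩⟩, -⟩ := D.universal T H.residue_surjective H.ρ h𝒟 hres
  refine ⟨φ, ?_, hφ, ⟨e⟩⟩
  have hT : ∀ (ℓ : ℕ) (hℓ : ℓ.Prime) (hℓN : ¬ ℓ ∣ N) (hℓS : ℓ ∉ S),
      H.π (CuspForm.heckeAlgebra.T hℓ hℓN hℓS) ∈ φ.range := by
    intro ℓ hℓ hℓN hℓS
    obtain ⟨A, hA⟩ := FA.Deform.exists_liesOverPrime hℓ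
    obtain ⟨σ, hσ⟩ := FA.Deform.exists_isFrobeniusAt hℓ hA
    let : Algebra D.R T := (φ : D.R →+* T).toAlgebra
    have h0 : LinearMap.charpoly ((D.ρ.baseChangeAlong (φ : D.R →+* T) hφ).ρ σ) =
        LinearMap.charpoly (H.ρ.ρ σ) := by
      rw [← LinearEquiv.charpoly_conj e.toLinearEquiv]
      congr 1
      ext x
      rw [LinearEquiv.conj_apply_apply]
      exact (e.map_apply σ _).trans (by rw [LinearEquiv.apply_symm_apply])
    have h1 : LinearMap.charpoly ((D.ρ.ρ σ).baseChange T) = LinearMap.charpoly (H.ρ.ρ σ) := h0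
    rw [LinearMap.charpoly_baseChange, H.charpoly_frob ℓ hℓ hℓN hℓS A hA σ hσ] at h1
    refine ⟨-(LinearMap.charpoly (D.ρ.ρ σ)).coeff 1, ?_⟩
    have h2 := congrArg (fun p : Polynomial T => p.coeff 1) h1
    simp [RingHom.algebraMap_toAlgebra] at h2
    simp [h2]
  have hrange : Set.range H.π ⊆ φ.range := by
    rintro _ ⟨⟨t, ht⟩, rfl⟩
    induction ht using Algebra.adjoin_induction with
    | mem x hx =>
      rcases hx with ⟨ℓ, hℓ, hℓN, hℓS, rfl⟩ | ⟨q, hqN, hq, hqS, rfl⟩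
      · exact hT ℓ hℓ hℓN hℓS
      · exact absurd (hS q hq hqN) hqS
    | algebraMap r =>
      change H.π (algebraMap ℤ (CuspForm.heckeAlgebra N 2 S) r) ∈ _
      rw [eq_intCast (algebraMap ℤ (CuspForm.heckeAlgebra N 2 S)), map_intCast]
      exact intCast_mem φ.range r
    | add x y hx hy ihx ihy =>
      have := add_mem ihx ihy
      rw [← map_add] at this
      exact this
    | mul x y hx hy ihx ihy =>
      have := mul_mem ihx ihy
      rw [← map_mul] at this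
      exact this
  have := Algebra.adjoin_le (R := 𝒪) hrange
  rw [H.adjoin_range_π] at this
  exact AlgHom.range_eq_top φ |>.mp (top_le_iff.mp this)

end Fermat.Agent.S54
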