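import Fermat.Statements.S55
import Fermat.Agent.GalCoh.S55Bridge

set_option autoImplicit false
set_option autoImplicit false
open CategoryTheory Module groupCohomology ExtCitation
open groupCohomology

namespace Fermat.Agent.S55

theorem result
    {p : ℕ} [Fact p.Prime] (hp2 : p ≠ 2) (S : Finset Nat.Primes) (hpS : pPrime p ∈ S)
    (M : Rep (ZMod p) (AlgebraicClosure ℚ ≃ₐ[ℚ] AlgebraicClosure ℚ))
    [FiniteDimensional (ZMod p) M]
    (hsm : ∀ m : M, ∃ F : IntermediateField ℚ (AlgebraicClosure ℚ), FiniteDimensional ℚ F ∧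
      ∀ s ∈ F.fixingSubgroup, M.ρ s m = m)
    (hMur : ∀ q : Nat.Primes, q ∉ S → ∀ A : ValuationSubring (AlgebraicClosure ℚ),
      A.LiesOverPrime (q : ℕ) → ∀ g ∈ A.inertiaSubgroupIn ℚ, M.ρ g = 1) :
    ∃ B : sha₁ S (M.dualTwist (cycloChar p)) →ₗ[ZMod p] sha₂ S M →ₗ[ZMod p] ZMod p,
      (∀ y, (∀ x, B y x = 0) → y = 0) ∧ (∀ x, (∀ y, B y x = 0) → x = 0) := by
  have hρ : FA.GalCoh.Smooth FA.GalCoh.LQ M.ρ := FA.GalCoh.smooth_LQ_of_smooth hsm
  have hunr : ∀ q : Nat.Primes, q ∉ S → FA.GalCoh.UnrRep (M.ρ.comp (FA.GalCoh.loc (q : ℕ))) :=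
    fun q hq t ht => hMur q hq _ (FA.GalCoh.liesOverPrime_padicPlace (q : ℕ)) _ ht
  have P := FA.GalCoh.DPair.canonical M.ρ hρ (FA.GalCoh.cycQ p).smooth_chr
  obtain ⟨h2, h1, hdim⟩ := FA.GalCoh.finrank_shaS P hp2 hpS hunr
  have hs : FA.GalCoh.Smooth (FA.GalCoh.levS S) (M.dualTwist (cycloChar p)).ρ :=
    FA.GalCoh.smooth_levS P.smooth_right
      (fun q hq => FA.GalCoh.unrRep_right P
        (fun h => hq ((show q = pPrime p from Subtype.ext h) ▸ hpS)) (hunr q hq))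
  let e₁ := FA.GalCoh.shaS1Equiv (A := M.dualTwist (cycloChar p)) hp2 hs
  let e₂ := FA.GalCoh.shaS2Equiv (M := M) (S := S) hp2
  have : Module.Finite (ZMod p) (FA.GalCoh.shaS1 S (M.dualTwist (cycloChar p)).ρ) := h1
  have := Module.Finite.equiv e₁
  have := Module.Finite.equiv e₂
  exact FA.GalCoh.exists_pairing_of_finrank_eq (e₁.finrank_eq.symm.trans (hdim.symm.trans e₂.finrank_eq))

end Fermat.Agent.S55
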